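import Fermat.Agent.G.FF.Dict

/-!
# Program G, package FF (abstract part): the norm formula at one place

`∑_{w | v} ord_w f = ord_v (N_{F'/F} f)` (all residue degrees are one, `K` algebraically closed),
via the relative ideal norm of Mathlib for `B / A`, `A = 𝒪_v`, `B` its integral closure in `F'`.
-/

set_option autoImplicit false
set_option linter.unusedSectionVars false
set_option linter.style.haveILetI false

namespace Fermat.Agent.G

open AlgebraicCurve IsDedekindDomain WithZero IsLocalRing Fermat.Agent.S24 IntermediateField
open UniqueFactorizationMonoid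

variable {K F F' : Type*} [Field K] [Field F] [Field F'] [Algebra K F] [Algebra K F']
  [Algebra F F'] [IsScalarTower K F F']

section Norm

variable [CharZero K] [Module.Finite F F'] [IsAlgClosed K] (v : Place K F)

local instance gffk_tower : IsScalarTower K v.toValuationSubring F' := gff_isScalarTower_place v
local instance gffk_dedekind : IsDedekindDomain (gffB v F') := gffB_isDedekindDomain v
local instance gffk_fraction : IsFractionRing (gffB v F') F' := gffB_isFractionRing v
local instance gffk_finite : Module.Finite v.toValuationSubring (gffB v F') := gffB_finite v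
local instance gffk_flat : Module.Flat v.toValuationSubring (gffB v F') := gffB_flat v

theorem gff_perfect : PerfectField (FractionRing v.toValuationSubring) := by
  have h0 := gff_charZero K F
  have h1 : CharZero v.toValuationSubring := inferInstance
  have h2 : CharZero (FractionRing v.toValuationSubring) :=
    charZero_of_injective_algebraMap (IsFractionRing.injective v.toValuationSubring _)
  infer_instance

/-- every nonzero prime of `B` lies over `𝔪_v` -/
theorem gffB_liesOver_of_prime (q : Ideal (gffB v F')) [hq : q.IsPrime] (hq0 : q ≠ ⊥) :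
    q.LiesOver (maximalIdeal v.toValuationSubring) := by
  have hmax : q.IsMaximal := hq.isMaximal hq0
  constructor
  have : (q.under v.toValuationSubring).IsMaximal :=
    Ideal.isMaximal_comap_of_isIntegral_of_isMaximal q
  exact (IsLocalRing.eq_maximalIdeal this).symm

theorem gffB_relNorm_prime {t : F} (ht : IsSepGen K t) (q : Ideal (gffB v F')) [hq : q.IsPrime]
    (hq0 : q ≠ ⊥) :
    Ideal.relNorm v.toValuationSubring q = maximalIdeal v.toValuationSubring := by
  have hlies := gffB_liesOver_of_prime v q hq0
  have hmax : q.IsMaximal := hq.isMaximal hq0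
  haveI := gff_perfect v
  rw [Ideal.relNorm_eq_pow_of_isMaximal q (maximalIdeal v.toValuationSubring),
    gffB_inertiaDeg_eq_one v ht ⟨q, hq, hlies⟩, pow_one]

theorem gffB_relNorm_eq_pow {t : F} (ht : IsSepGen K t) (I : Ideal (gffB v F')) (hI : I ≠ ⊥) :
    Ideal.relNorm v.toValuationSubring I
      = maximalIdeal v.toValuationSubring ^ Multiset.card (normalizedFactors I) := by
  conv_lhs => rw [← Ideal.prod_normalizedFactors_eq_self hI]
  rw [map_multiset_prod]
  have : Multiset.map (Ideal.relNorm v.toValuationSubring) (normalizedFactors I)
      = Multiset.replicate (Multiset.card (normalizedFactors I))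
          (maximalIdeal v.toValuationSubring) := by
    rw [Multiset.eq_replicate]
    refine ⟨by simp, fun J hJ => ?_⟩
    obtain ⟨q, hq, rfl⟩ := Multiset.mem_map.1 hJ
    have hprime := Ideal.isPrime_of_prime (prime_of_normalized_factor q hq)
    exact gffB_relNorm_prime v ht q (prime_of_normalized_factor q hq).ne_zero
  rw [this, Multiset.prod_replicate]

/-- `ord` at the place attached to `q` of an element of `B` is the multiplicity of `q` -/
theorem gffPlace_ord_algebraMap
    (q : (maximalIdeal v.toValuationSubring).primesOver (gffB v F')) {b : gffB v F'}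
    (hb : b ≠ 0) :
    (gffPlace v q).ord (algebraMap (gffB v F') F' b)
      = ((normalizedFactors (Ideal.span {b})).count q.1 : ℤ) := by
  classical
  have hq := q.2.1
  have hq0 : q.1 ≠ ⊥ := (gffHeightOne v q).ne_bot
  have hI : Ideal.span {b} ≠ ⊥ := by
    rw [ne_eq, Ideal.span_singleton_eq_bot]; exact hb
  rw [gffPlace, ord_ofHeightOneSpectrum, HeightOneSpectrum.valuation_of_algebraMap,
    HeightOneSpectrum.intValuation_eq_exp_neg_multiplicity _ hb, log_exp, neg_neg]
  congr 1
  show multiplicity q.1 (Ideal.span {b}) = _
  rw [multiplicity_eq_of_emultiplicity_eq_some (emultiplicity_eq_count_normalizedFactors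
      (Ideal.prime_of_isPrime hq0 hq).irreducible hI), normalize_eq]

theorem gffB_sum_count (I : Ideal (gffB v F'))
    [Fintype ((maximalIdeal v.toValuationSubring).primesOver (gffB v F'))]
    [DecidableEq (Ideal (gffB v F'))] :
    ∑ q : (maximalIdeal v.toValuationSubring).primesOver (gffB v F'),
      (normalizedFactors I).count q.1 = Multiset.card (normalizedFactors I) := by
  classical
  rw [← Multiset.toFinset_sum_count_eq]
  have h1 : ∑ q : (maximalIdeal v.toValuationSubring).primesOver (gffB v F'),
      (normalizedFactors I).count q.1
      = ∑ J ∈ (Finset.univ.image (fun q : (maximalIdeal v.toValuationSubring).primesOver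
          (gffB v F') => q.1)), (normalizedFactors I).count J := by
    rw [Finset.sum_image (fun a _ b _ h => Subtype.ext h)]
  rw [h1]
  symm
  refine Finset.sum_subset ?_ ?_
  · intro J hJ
    rw [Multiset.mem_toFinset] at hJ
    have hprime := Ideal.isPrime_of_prime (prime_of_normalized_factor J hJ)
    have hlies := gffB_liesOver_of_prime v J (prime_of_normalized_factor J hJ).ne_zero
    rw [Finset.mem_image]
    exact ⟨⟨J, hprime, hlies⟩, Finset.mem_univ _, rfl⟩
  · intro J _ hJ
    rw [Multiset.mem_toFinset] at hJ
    exact Multiset.count_eq_zero.2 hJ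

/-- an element of `𝒪_v` generating `𝔪_v ^ m` has order `m` -/
theorem gff_ord_of_span_eq_pow {x : v.toValuationSubring} {m : ℕ}
    (h : Ideal.span {x} = maximalIdeal v.toValuationSubring ^ m) : v.ord (x : F) = m := by
  obtain ⟨π, hπ⟩ := IsDiscreteValuationRing.exists_irreducible v.toValuationSubring
  rw [hπ.maximalIdeal_eq, Ideal.span_singleton_pow, Ideal.span_singleton_eq_span_singleton] at h
  obtain ⟨u, hu⟩ := h.symm
  have hx : (x : F) = ((u : v.toValuationSubring) : F) * ((π : F) ^ (m : ℤ)) := by
    rw [← hu, zpow_natCast]
    push_cast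
    ring
  rw [hx]
  exact v.ord_unit_smul_zpow u hπ m

/-- (N1) the norm formula for elements of `B` -/
theorem gffa_sum_ord_algebraMap {t : F} (ht : IsSepGen K t)
    [Fintype ((maximalIdeal v.toValuationSubring).primesOver (gffB v F'))]
    {b : gffB v F'} (hb : b ≠ 0) :
    ∑ q : (maximalIdeal v.toValuationSubring).primesOver (gffB v F'),
      (gffPlace v q).ord (algebraMap (gffB v F') F' b)
      = v.ord (Algebra.norm F (algebraMap (gffB v F') F' b)) := by
  classical
  have hI : Ideal.span {b} ≠ ⊥ := by
    rw [ne_eq, Ideal.span_singleton_eq_bot]; exact hb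
  have h1 : ∑ q : (maximalIdeal v.toValuationSubring).primesOver (gffB v F'),
      (gffPlace v q).ord (algebraMap (gffB v F') F' b)
      = (Multiset.card (normalizedFactors (Ideal.span {b})) : ℤ) := by
    rw [← gffB_sum_count v (Ideal.span {b})]
    push_cast
    exact Finset.sum_congr rfl fun q _ => gffPlace_ord_algebraMap v q hb
  have h2 := gffB_relNorm_eq_pow v ht (Ideal.span {b}) hI
  rw [Ideal.relNorm_singleton] at h2
  have h3 := gff_ord_of_span_eq_pow v h2
  rw [h1, ← h3, ← Algebra.algebraMap_intNorm (A := v.toValuationSubring) (K := F) (L := F')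
    (B := gffB v F') b]
  rfl

end Norm

end Fermat.Agent.G
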