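import Fermat.Prelude.Def_AlgebraicCurve_Correspondence
import Fermat.Agent.G.FF.Norm

/-!
# Program G, package FF (abstract part): fundamental identity and norm formula

`K` algebraically closed of characteristic zero, `F → F'` a finite extension of function fields
over `K`, `t : F` a separating generator (S24 `IsSepGen K t`).  Then `F'` has principal divisors
(`gffa_hasPrincipalDivisors`, in `Dict.lean`), `∑_{w | v} e(w|v) f(w|v) = [F' : F]`
(`gffa_sumRamificationInertia`) and the norm formula
`(pushforward div f)(v) = ord_v (N_{F'/F} f)` (`gffa_pushforwardNormFormula`) hold; also in the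
`…Along` form of the Prelude (`gffa_along_*`).
-/

set_option autoImplicit false
set_option linter.unusedSectionVars false
set_option linter.style.haveILetI false

namespace Fermat.Agent.G

open AlgebraicCurve IsDedekindDomain WithZero IsLocalRing Fermat.Agent.S24 IntermediateField

variable {K F F' : Type*} [Field K] [Field F] [Field F'] [Algebra K F] [Algebra K F']

section Instances

variable [Algebra F F'] [IsScalarTower K F F'] [IsAlgClosed K] [CharZero K] [Module.Finite F F']

section OnePlace

variable (v : Place K F)

local instance gffl_tower : IsScalarTower K v.toValuationSubring F' := gff_isScalarTower_place v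
local instance gffl_dedekind : IsDedekindDomain (gffB v F') := gffB_isDedekindDomain v
local instance gffl_fraction : IsFractionRing (gffB v F') F' := gffB_isFractionRing v
local instance gffl_finite : Module.Finite v.toValuationSubring (gffB v F') := gffB_finite v
local instance gffl_flat : Module.Flat v.toValuationSubring (gffB v F') := gffB_flat v

/-- the norm formula at `v`, summed over the primes of `B` over `𝔪_v` -/
theorem gffa_sum_ord {t : F} (ht : IsSepGen K t)
    [Fintype ((maximalIdeal v.toValuationSubring).primesOver (gffB v F'))]
    {f : F'} (hf : f ≠ 0) :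
    ∑ q : (maximalIdeal v.toValuationSubring).primesOver (gffB v F'), (gffPlace v q).ord f
      = v.ord (Algebra.norm F f) := by
  obtain ⟨b, c, hc, rfl⟩ := IsFractionRing.div_surjective (A := gffB v F') f
  have hc0 : c ≠ 0 := nonZeroDivisors.ne_zero hc
  have hcF : algebraMap (gffB v F') F' c ≠ 0 := by
    rwa [ne_eq, FaithfulSMul.algebraMap_eq_zero_iff]
  have hbF : algebraMap (gffB v F') F' b ≠ 0 := by
    intro h
    rw [h, zero_div] at hf
    exact hf rfl
  have hb0 : b ≠ 0 := by
    rintro rfl
    exact hbF (map_zero _)
  have hNc : Algebra.norm F (algebraMap (gffB v F') F' c) ≠ 0 := Algebra.norm_ne_zero_iff.mpr hcF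
  have hNf : Algebra.norm F (algebraMap (gffB v F') F' b / algebraMap (gffB v F') F' c) ≠ 0 :=
    Algebra.norm_ne_zero_iff.mpr hf
  have hmul : algebraMap (gffB v F') F' b / algebraMap (gffB v F') F' c
      * algebraMap (gffB v F') F' c = algebraMap (gffB v F') F' b := div_mul_cancel₀ _ hcF
  have h1 : ∀ q : (maximalIdeal v.toValuationSubring).primesOver (gffB v F'),
      (gffPlace v q).ord (algebraMap (gffB v F') F' b / algebraMap (gffB v F') F' c)
        = (gffPlace v q).ord (algebraMap (gffB v F') F' b)
          - (gffPlace v q).ord (algebraMap (gffB v F') F' c) := by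
    intro q
    have := (gffPlace v q).ord_mul hf hcF
    rw [hmul] at this
    omega
  have h2 : v.ord (Algebra.norm F (algebraMap (gffB v F') F' b / algebraMap (gffB v F') F' c))
      = v.ord (Algebra.norm F (algebraMap (gffB v F') F' b))
        - v.ord (Algebra.norm F (algebraMap (gffB v F') F' c)) := by
    have := v.ord_mul hNf hNc
    rw [← map_mul, hmul] at this
    omega
  simp_rw [h1]
  rw [Finset.sum_sub_distrib, gffa_sum_ord_algebraMap v ht hb0,
    gffa_sum_ord_algebraMap v ht hc0, h2]

end OnePlace

theorem gffa_sumRamificationInertia [Algebra.IsIntegral F F'] [HasPrincipalDivisors K F']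
    {t : F} (ht : IsSepGen K t) : SumRamificationInertia K F F' :=
  ⟨fun v => gffa_sum_ramificationIndex v ht⟩

theorem gffa_fundamentalIdentity [Algebra.IsIntegral F F'] [HasPrincipalDivisors K F']
    {t : F} (ht : IsSepGen K t) : FundamentalIdentity K F F' :=
  haveI := gffa_sumRamificationInertia (F' := F') ht
  inferInstance

theorem gffa_pushforwardNormFormula [Algebra.IsIntegral F F']
    {t : F} (ht : IsSepGen K t) : Divisor.PushforwardNormFormula K F F' := by
  classical
  intro f hf D hD v
  have hfinp := gffB_finite_primesOver (F' := F') v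
  let _ : Fintype ((maximalIdeal v.toValuationSubring).primesOver (gffB v F')) := hfinp.fintype
  rw [Divisor.pushforward_apply, ← gffa_sum_ord v ht hf, ← Finset.sum_filter]
  have h1 : ∑ q : (maximalIdeal v.toValuationSubring).primesOver (gffB v F'),
      (gffPlace v q).ord f
      = ∑ w ∈ Finset.univ.image (gffPlace (K := K) (F' := F') v), w.ord f := by
    rw [Finset.sum_image (fun a _ b _ h => gffPlace_injective v h)]
  rw [h1]
  have h2 : ∑ w ∈ D.support with w.restrict F = v, D w * (w.inertiaDeg F : ℤ)
      = ∑ w ∈ D.support with w.restrict F = v, w.ord f :=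
    Finset.sum_congr rfl fun w _ => by
      rw [hD w, gffa_inertiaDeg_eq_one ht, Nat.cast_one, mul_one]
  rw [h2]
  refine Finset.sum_subset ?_ ?_
  · intro w hw
    rw [Finset.mem_filter] at hw
    obtain ⟨q, hq⟩ := gffPlace_surj v w hw.2
    rw [Finset.mem_image]
    exact ⟨q, Finset.mem_univ _, hq⟩
  · intro w hw hw'
    rw [Finset.mem_image] at hw
    obtain ⟨q, -, rfl⟩ := hw
    rw [Finset.mem_filter, not_and] at hw'
    have h3 : gffPlace v q ∉ D.support := fun h => hw' h (gffPlace_restrict v q)
    rw [Finsupp.notMem_support_iff, hD] at h3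
    exact h3

end Instances

section Along

variable [IsAlgClosed K] [CharZero K]

theorem gffa_along_isIntegral (φ : F →ₐ[K] F') (hfin : FiniteAlong K φ) :
    φ.toRingHom.IsIntegral := by
  letI := algebraAlong φ
  haveI : Module.Finite F F' := hfin
  have h : Algebra.IsIntegral F F' := inferInstance
  exact fun x => h.isIntegral x

theorem gffa_along_hasPrincipalDivisors (φ : F →ₐ[K] F') (hfin : FiniteAlong K φ)
    {t : F} (ht : IsSepGen K t) : HasPrincipalDivisors K F' := by
  letI := algebraAlong φ
  haveI := isScalarTower_along φ
  haveI : Module.Finite F F' := hfin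
  exact gffa_hasPrincipalDivisors (F' := F') ht

theorem gffa_along_fundamentalIdentity (φ : F →ₐ[K] F') (hfin : FiniteAlong K φ)
    (hφ : φ.toRingHom.IsIntegral) [HasPrincipalDivisors K F'] {t : F} (ht : IsSepGen K t) :
    FundamentalIdentityAlong K φ hφ := by
  letI := algebraAlong φ
  haveI := isScalarTower_along φ
  haveI := isIntegral_along φ hφ
  haveI : Module.Finite F F' := hfin
  exact gffa_fundamentalIdentity (F' := F') ht

theorem gffa_along_normFormula (φ : F →ₐ[K] F') (hfin : FiniteAlong K φ)
    {t : F} (ht : IsSepGen K t) : NormFormulaAlong K φ hfin := by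
  letI := algebraAlong φ
  haveI := isScalarTower_along φ
  haveI : Module.Finite F F' := hfin
  exact gffa_pushforwardNormFormula (F' := F') ht

end Along

end Fermat.Agent.G
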