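import Mathlib
import Fermat.Agent.G.Defs
import Fermat.Agent.S24.PlacesPrincipal
import Fermat.Agent.S24.Degree

/-!
# Program G, package G/FF (B) : the degeneracy maps `α, β : F_ℚ̄(N) → F_ℚ̄(N ℓ)` are finite

* `gff_finite_along` (abstract): `φ : F →ₐ[K] F'`, `F'` finite over `K(φ t)` ⟹ `F'` is a finite
  `F`-module along `φ`, and `φ` is integral;
* `gff_isSepGen_alpha`, `gff_isSepGen_beta` : `α j = j`, `β j = j(q^ℓ)` are separating
  transcendental generators of `F_ℚ̄(N ℓ)`;
* `gff_alpha_finite`, `gff_alpha_integral`, `gff_beta_finite`, `gff_beta_integral`,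
  `gff_hasPrincipalDivisors`.
-/

set_option autoImplicit false
set_option linter.unusedSectionVars false
set_option linter.unusedVariables false
set_option linter.style.haveILetI false

noncomputable section

namespace Fermat.Agent.G

open ModularCurve AlgebraicCurve IntermediateField Fermat.Agent.S24

section Abstract

variable {K F F' : Type*} [Field K] [Field F] [Field F'] [Algebra K F] [Algebra K F']

/-- `F'` is finite over `φ F` if it is finite over `K(φ t)`. -/
theorem gff_finite_along (φ : F →ₐ[K] F') (t : F) (t' : F') (ht : φ t = t')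
    [FiniteDimensional K⟮t'⟯ F'] : FiniteAlong K φ := by
  subst ht
  letI := algebraAlong φ
  show Module.Finite F F'
  obtain ⟨s, hs⟩ := (Module.Finite.fg_top : (⊤ : Submodule K⟮φ t⟯ F').FG)
  have hle : K⟮φ t⟯ ≤ φ.fieldRange := by
    rw [IntermediateField.adjoin_le_iff]
    rintro x hx
    rw [Set.mem_singleton_iff] at hx
    subst hx
    exact ⟨t, rfl⟩
  have key : ∀ x : F', x ∈ Submodule.span K⟮φ t⟯ (s : Set F') →
      x ∈ Submodule.span F (s : Set F') := by
    intro x hx
    induction hx using Submodule.span_induction with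
    | mem y hy => exact Submodule.subset_span hy
    | zero => exact zero_mem _
    | add _ _ _ _ h1 h2 => exact add_mem h1 h2
    | smul c y _ hy =>
        obtain ⟨d, hd⟩ := hle c.2
        have : c • y = d • y := by
          rw [Algebra.smul_def d y]
          show (c : F') * y = φ d * y
          rw [← hd]
          rfl
        rw [this]
        exact Submodule.smul_mem _ d hy
  refine ⟨⟨s, ?_⟩⟩
  rw [eq_top_iff]
  intro x _
  exact key x (by rw [hs]; exact Submodule.mem_top)

/-- a finite map of fields is integral. -/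
theorem gff_integral_of_finite (φ : F →ₐ[K] F') (h : FiniteAlong K φ) :
    φ.toRingHom.IsIntegral := by
  letI := algebraAlong φ
  haveI : Module.Finite F F' := h
  intro x
  exact Algebra.IsIntegral.isIntegral (R := F) x

end Abstract

section Modular

local notation "Qb" => AlgebraicClosure ℚ

variable (N ℓ : ℕ) [NeZero N] [NeZero ℓ]

theorem gff_alpha_jBar : heckeAlphaBar Qb N ℓ (jBar N) = jBar (N * ℓ) :=
  Subtype.ext rfl

theorem gff_beta_jBar :
    heckeBetaBar Qb N ℓ (jBar N) = jdBar (N * ℓ) ℓ (dvd_mul_left ℓ N) := by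
  apply Subtype.ext
  rw [coe_heckeBetaBar, coe_jBar, coe_jdBar]
  show qExpand Qb ℓ (coeffMap (algebraMap ℚ Qb) jq) = coeffMap (algebraMap ℚ Qb) (qExpand ℚ ℓ jq)
  rw [coeffMap_qExpand]

/-- `β j = j(q^ℓ)` is transcendental. -/
theorem gff_transcendental_beta : Transcendental Qb (heckeBetaBar Qb N ℓ (jBar N)) := by
  intro h
  exact transcendental_jBar N
    ((isAlgebraic_algHom_iff (heckeBetaBar Qb N ℓ) (heckeBetaBar Qb N ℓ).injective).mp h)

/-- `β j` is a separating generator of `F_ℚ̄(N ℓ)`. -/
theorem gff_isSepGen_beta : IsSepGen Qb (heckeBetaBar Qb N ℓ (jBar N)) :=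
  (isSepGen_jBar (N * ℓ)).of_transcendental (gff_transcendental_beta N ℓ)

theorem gff_alpha_finite : FiniteAlong Qb (heckeAlphaBar Qb N ℓ) := by
  haveI := finiteDimensional_jBar (N * ℓ)
  exact gff_finite_along (heckeAlphaBar Qb N ℓ) (jBar N) (jBar (N * ℓ)) (gff_alpha_jBar N ℓ)

theorem gff_beta_finite : FiniteAlong Qb (heckeBetaBar Qb N ℓ) := by
  haveI := (gff_isSepGen_beta N ℓ).finite
  exact gff_finite_along (heckeBetaBar Qb N ℓ) (jBar N) _ rfl

theorem gff_alpha_integral : HeckeAlphaBarIntegral Qb N ℓ :=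
  gff_integral_of_finite _ (gff_alpha_finite N ℓ)

theorem gff_beta_integral : HeckeBetaBarIntegral Qb N ℓ :=
  gff_integral_of_finite _ (gff_beta_finite N ℓ)

theorem gff_hasPrincipalDivisors (M : ℕ) [NeZero M] :
    HasPrincipalDivisors Qb (modularFunctionFieldBar M) :=
  (isSepGen_jBar M).hasPrincipalDivisors

end Modular

end Fermat.Agent.G
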