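import Mathlib
import Fermat.Agent.G.Defs
import Fermat.Agent.G.FF.Hecke

/-!
# Program G, package G/FF (B) : Hecke on classes = norm on functions (`gff_hecke_class`),
from `HeckeInputsAlong` (FF1)
-/

set_option autoImplicit false
set_option linter.unusedSectionVars false
set_option linter.unusedVariables false
set_option linter.style.haveILetI false

noncomputable section

namespace Fermat.Agent.G

open ModularCurve AlgebraicCurve IntermediateField Fermat.Agent.S24

section Abstract

variable {K F F' : Type*} [Field K] [Field F] [Field F'] [Algebra K F] [Algebra K F']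

/-- pullback of the divisor of `f` along `φ` is the divisor of `φ f`. -/
theorem gff_pullbackAlong_ord [HasPrincipalDivisors K F'] (φ : F →ₐ[K] F')
    (hφ : φ.toRingHom.IsIntegral) (D : Divisor K F) (f : F)
    (hD : ∀ v : Place K F, D v = v.ord f) (w : Place K F') :
    Divisor.pullbackAlong φ hφ D w = w.ord (φ f) := by
  rw [Divisor.pullbackAlong_apply, hD, ← Place.ord_restrictAlong]

/-- pushforward of the divisor of `g` along `ψ` is the divisor of the norm of `g`. -/
theorem gff_pushforwardAlong_ord (ψ : F →ₐ[K] F') (hψ : ψ.toRingHom.IsIntegral)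
    (hfin : FiniteAlong K ψ) (hN : NormFormulaAlong K ψ hfin) (D' : Divisor K F') (g : F')
    (hg : g ≠ 0) (hD' : ∀ w : Place K F', D' w = w.ord g) (v : Place K F) :
    Divisor.pushforwardAlong ψ hψ D' v =
      v.ord ((letI := algebraAlong ψ; Algebra.norm F) g) := by
  letI := algebraAlong ψ
  haveI := isScalarTower_along ψ
  haveI := isIntegral_along ψ hψ
  haveI : Module.Finite F F' := hfin
  exact hN g hg D' hD' v

/-- the norm along a finite map of fields does not vanish on non-zero elements. -/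
theorem gff_norm_ne_zero (ψ : F →ₐ[K] F') (hfin : FiniteAlong K ψ) (g : F') (hg : g ≠ 0) :
    (letI := algebraAlong ψ; Algebra.norm F) g ≠ 0 := by
  letI := algebraAlong ψ
  haveI : Module.Finite F F' := hfin
  exact Algebra.norm_ne_zero_iff.mpr hg

/-- CORRESPONDENCE ON DIVISORS OF FUNCTIONS: if `n D = div f` then
`n (ψ_* φ^* D) = div (N_ψ (φ f))`. -/
theorem gff_correspondence_ord [HasPrincipalDivisors K F'] (φ ψ : F →ₐ[K] F')
    (hφ : φ.toRingHom.IsIntegral) (hψ : ψ.toRingHom.IsIntegral)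
    (hfin : FiniteAlong K ψ) (hN : NormFormulaAlong K ψ hfin)
    (D : Divisor K F) (n : ℤ) (f : F) (hf : f ≠ 0)
    (hD : ∀ v : Place K F, n * D v = v.ord f) (v : Place K F) :
    n * Divisor.correspondence φ ψ hφ hψ D v =
      v.ord ((letI := algebraAlong ψ; Algebra.norm F) (φ f)) := by
  have h1 : n * Divisor.correspondence φ ψ hφ hψ D v =
      Divisor.correspondence φ ψ hφ hψ (n • D) v := by
    rw [map_zsmul, Finsupp.smul_apply, smul_eq_mul]
  rw [h1, Divisor.correspondence_apply]
  have hφf : φ f ≠ 0 := (map_ne_zero φ).mpr hf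
  refine gff_pushforwardAlong_ord ψ hψ hfin hN _ (φ f) hφf (fun w => ?_) v
  exact gff_pullbackAlong_ord φ hφ (n • D) f
    (fun v => by rw [Finsupp.smul_apply, smul_eq_mul, hD]) w

end Abstract

section Modular

local notation "Qb" => AlgebraicClosure ℚ

/-- (FF2) from (FF1). -/
theorem gff_hecke_class_of_inputs (N ℓ : ℕ) [NeZero N] (hℓ : ℓ.Prime)
    (hin : haveI : NeZero ℓ := ⟨hℓ.ne_zero⟩; HeckeInputsAlong Qb N ℓ)
    (D : Divisor.degZero (K := Qb) (F := modularFunctionFieldBar N))
    (n : ℕ) (f : modularFunctionFieldBar N) (hf : f ≠ 0)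
    (hD : ∀ P : Place Qb (modularFunctionFieldBar N),
      (n : ℤ) * (D : Divisor Qb (modularFunctionFieldBar N)) P = P.ord f) :
    haveI : NeZero ℓ := ⟨hℓ.ne_zero⟩
    ∃ E : Divisor.degZero (K := Qb) (F := modularFunctionFieldBar N),
      heckeOperatorBar N ⟨ℓ, hℓ⟩ (Pic0.mk D) = Pic0.mk E ∧
      gHeckeFun N ℓ f ≠ 0 ∧
      ∀ P : Place Qb (modularFunctionFieldBar N),
        (n : ℤ) * (E : Divisor Qb (modularFunctionFieldBar N)) P =
          P.ord (gHeckeFun N ℓ f) := by
  haveI : NeZero ℓ := ⟨hℓ.ne_zero⟩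
  obtain ⟨hα, hβ, hP, hfin, hFI, hN⟩ := hin
  haveI := hP
  refine ⟨Pic0.degZeroCorrespondence (heckeBetaBar Qb N ℓ) (heckeAlphaBar Qb N ℓ) hβ hα hFI D,
    ?_, ?_, fun P => ?_⟩
  · rw [heckeOperatorBar_apply]
    show heckeOperatorAlong Qb N ℓ (Pic0.mk D) = _
    rw [heckeOperatorAlong_eq hα hβ hFI hfin hN]
    rfl
  · rw [gHeckeFun_apply]
    exact gff_norm_ne_zero (heckeAlphaBar Qb N ℓ) hfin _
      ((map_ne_zero (heckeBetaBar Qb N ℓ)).mpr hf)
  · rw [Pic0.coe_degZeroCorrespondence, gHeckeFun_apply]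
    exact gff_correspondence_ord (heckeBetaBar Qb N ℓ) (heckeAlphaBar Qb N ℓ) hβ hα hfin hN
      (D : Divisor Qb (modularFunctionFieldBar N)) n f hf hD P

end Modular

end Fermat.Agent.G
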