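import Fermat.Agent.G.FF.Abs

/-!
# Program G, package FF (abstract part): SHIM

All statements formerly stubbed here are now PROVED in `Fermat/Agent/G/FF/Abs.lean` (same names
without the trailing `_spec`).  This file re-exports them under the old `_spec` names so that files
wired against the stubs keep compiling; prefer `import Fermat.Agent.G.FF.Abs` and the names
without suffix.
-/

set_option autoImplicit false

namespace Fermat.Agent.G

open AlgebraicCurve Fermat.Agent.S24

variable {K F F' : Type*} [Field K] [Field F] [Field F'] [Algebra K F] [Algebra K F']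

section Instances

variable [Algebra F F'] [IsScalarTower K F F'] [IsAlgClosed K] [CharZero K] [Module.Finite F F']

theorem gffa_isSepGen_algebraMap_spec {t : F} (ht : IsSepGen K t) :
    IsSepGen K (algebraMap F F' t) := gffa_isSepGen_algebraMap ht

theorem gffa_hasPrincipalDivisors_spec {t : F} (ht : IsSepGen K t) :
    HasPrincipalDivisors K F' := gffa_hasPrincipalDivisors ht

theorem gffa_sumRamificationInertia_spec [Algebra.IsIntegral F F'] [HasPrincipalDivisors K F']
    {t : F} (ht : IsSepGen K t) : SumRamificationInertia K F F' :=
  gffa_sumRamificationInertia ht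

theorem gffa_fundamentalIdentity_spec [Algebra.IsIntegral F F'] [HasPrincipalDivisors K F']
    {t : F} (ht : IsSepGen K t) : FundamentalIdentity K F F' := gffa_fundamentalIdentity ht

theorem gffa_pushforwardNormFormula_spec [Algebra.IsIntegral F F']
    {t : F} (ht : IsSepGen K t) : Divisor.PushforwardNormFormula K F F' :=
  gffa_pushforwardNormFormula ht

end Instances

section Along

variable [IsAlgClosed K] [CharZero K]

theorem gffa_along_isIntegral_spec (φ : F →ₐ[K] F') (hfin : FiniteAlong K φ) :
    φ.toRingHom.IsIntegral := gffa_along_isIntegral φ hfin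

theorem gffa_along_hasPrincipalDivisors_spec (φ : F →ₐ[K] F') (hfin : FiniteAlong K φ)
    {t : F} (ht : IsSepGen K t) : HasPrincipalDivisors K F' :=
  gffa_along_hasPrincipalDivisors φ hfin ht

theorem gffa_along_fundamentalIdentity_spec (φ : F →ₐ[K] F') (hfin : FiniteAlong K φ)
    (hφ : φ.toRingHom.IsIntegral) [HasPrincipalDivisors K F'] {t : F} (ht : IsSepGen K t) :
    FundamentalIdentityAlong K φ hφ := gffa_along_fundamentalIdentity φ hfin hφ ht

theorem gffa_along_normFormula_spec (φ : F →ₐ[K] F') (hfin : FiniteAlong K φ)
    {t : F} (ht : IsSepGen K t) : NormFormulaAlong K φ hfin := gffa_along_normFormula φ hfin ht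

end Along

end Fermat.Agent.G
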