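import Mathlib
import Fermat.Agent.G.FF.Class
import Fermat.Agent.G.FF.AbsSpec

/-!
# Program G, package G/FF : TOP STATEMENTS `gff_heckeInputs` (FF1), `gff_hecke_class` (FF2)
(VERBATIM from `G/FF/Spec.lean`)

(FF1) = concrete finiteness (`FF/Hecke.lean`) + the abstract fundamental identity and norm formula
(`FF/Abs.lean`, helper24); (FF2) = `FF/Class.lean` + (FF1).
-/

set_option autoImplicit false
set_option linter.unusedSectionVars false
set_option linter.unusedVariables false
set_option synthInstance.maxHeartbeats 400000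

noncomputable section

namespace Fermat.Agent.G

open ModularCurve AlgebraicCurve IsLocalRing Fermat.Agent.S24

/-- (FF1) THE PRELUDE HECKE OPERATOR IS HONEST: `α`, `β` are integral and finite, principal
divisors of `F_ℚ̄(N ℓ)` have degree `0` (S24 `IsSepGen.hasPrincipalDivisors`), the fundamental
identity `∑ e = n` holds along `β` and the norm formula `div (N z) = α_* (div z)` along `α`. -/
theorem gff_heckeInputs (N ℓ : ℕ) [NeZero N] [NeZero ℓ] (hℓ : ℓ.Prime) :
    HeckeInputsAlong (AlgebraicClosure ℚ) N ℓ := by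
  have hP : HasPrincipalDivisors (AlgebraicClosure ℚ) (modularFunctionFieldBar (N * ℓ)) :=
    gff_hasPrincipalDivisors (N * ℓ)
  exact heckeInputsAlong_intro (gff_alpha_integral N ℓ) (gff_beta_integral N ℓ)
    (gffa_along_fundamentalIdentity_spec (heckeBetaBar (AlgebraicClosure ℚ) N ℓ)
      (gff_beta_finite N ℓ) (gff_beta_integral N ℓ) (isSepGen_jBar N))
    (gff_alpha_finite N ℓ)
    (gffa_along_normFormula_spec (heckeAlphaBar (AlgebraicClosure ℚ) N ℓ) (gff_alpha_finite N ℓ)
      (isSepGen_jBar N))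

/-- (FF2) HECKE ON CLASSES = NORM ON FUNCTIONS: if `n D = div f` then `T_ℓ [D] = [E]` with
`n E = div (N_α (β f))`. -/
theorem gff_hecke_class (N ℓ : ℕ) [NeZero N] (hℓ : ℓ.Prime)
    (D : Divisor.degZero (K := AlgebraicClosure ℚ) (F := modularFunctionFieldBar N))
    (n : ℕ) (f : modularFunctionFieldBar N) (hf : f ≠ 0)
    (hD : ∀ P : Place (AlgebraicClosure ℚ) (modularFunctionFieldBar N),
      (n : ℤ) * (D : Divisor (AlgebraicClosure ℚ) (modularFunctionFieldBar N)) P = P.ord f) :
    haveI : NeZero ℓ := ⟨hℓ.ne_zero⟩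
    ∃ E : Divisor.degZero (K := AlgebraicClosure ℚ) (F := modularFunctionFieldBar N),
      heckeOperatorBar N ⟨ℓ, hℓ⟩ (Pic0.mk D) = Pic0.mk E ∧
      gHeckeFun N ℓ f ≠ 0 ∧
      ∀ P : Place (AlgebraicClosure ℚ) (modularFunctionFieldBar N),
        (n : ℤ) * (E : Divisor (AlgebraicClosure ℚ) (modularFunctionFieldBar N)) P =
          P.ord (gHeckeFun N ℓ f) :=
  haveI : NeZero ℓ := ⟨hℓ.ne_zero⟩
  gff_hecke_class_of_inputs N ℓ hℓ (gff_heckeInputs N ℓ hℓ) D n f hf hD

end Fermat.Agent.G
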