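import Mathlib
import Fermat.Prelude.Def_AlgebraicCurve_DivisorPushPull
import Fermat.Agent.S24.PlacesPrincipal

/-!
# Program G, package FF (abstract part): places over a place `v` of `F` in a finite extension `F'`

`v : Place K F`, `A = 𝒪_v` (a DVR), `B =` integral closure of `A` in `F'` (a semilocal Dedekind
domain, finite over `A`).  The places of `F'` over `v` are the places attached to the primes of `B`
over the maximal ideal of `A`.
-/

set_option autoImplicit false
set_option linter.unusedSectionVars false
set_option linter.style.haveILetI false

namespace Fermat.Agent.G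

open AlgebraicCurve IsDedekindDomain WithZero IsLocalRing Fermat.Agent.S24 IntermediateField

variable {K F F' : Type*} [Field K] [Field F] [Field F'] [Algebra K F] [Algebra K F']
  [Algebra F F'] [IsScalarTower K F F']

theorem gff_charZero (K F : Type*) [Field K] [Field F] [Algebra K F] [CharZero K] : CharZero F :=
  charZero_of_injective_algebraMap (algebraMap K F).injective

/-- the tower `K → 𝒪_v → F'` -/
theorem gff_isScalarTower_place (v : Place K F) : IsScalarTower K v.toValuationSubring F' :=
  IsScalarTower.of_algebraMap_eq fun a => by
    rw [IsScalarTower.algebraMap_apply K F F']; rfl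

/-- integral closure of `𝒪_v` in `F'` -/
abbrev gffB (v : Place K F) (F' : Type*) [Field F'] [Algebra F F'] :
    Subalgebra v.toValuationSubring F' := integralClosure v.toValuationSubring F'

section Finite

variable [CharZero K] [Module.Finite F F'] (v : Place K F)

theorem gffB_isDedekindDomain : IsDedekindDomain (gffB v F') := by
  have := gff_charZero K F
  exact integralClosure.isDedekindDomain v.toValuationSubring F F'

theorem gffB_isFractionRing : IsFractionRing (gffB v F') F' :=
  IsIntegralClosure.isFractionRing_of_finite_extension v.toValuationSubring F F' _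

theorem gffB_finite : Module.Finite v.toValuationSubring (gffB v F') := by
  have := gff_charZero K F
  exact IsIntegralClosure.finite v.toValuationSubring F F' _

theorem gffB_flat : Module.Flat v.toValuationSubring (gffB v F') := by
  have h1 : IsDedekindDomain v.toValuationSubring := inferInstance
  have h2 : Module.IsTorsionFree v.toValuationSubring (gffB v F') := inferInstance
  exact Module.Flat.instOfIsDedekindDomainOfIsTorsionFree

end Finite

section Dict

variable [CharZero K] [Module.Finite F F'] (v : Place K F)

local instance gffi_tower : IsScalarTower K v.toValuationSubring F' := gff_isScalarTower_place v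
local instance gffi_dedekind : IsDedekindDomain (gffB v F') := gffB_isDedekindDomain v
local instance gffi_fraction : IsFractionRing (gffB v F') F' := gffB_isFractionRing v
local instance gffi_finite : Module.Finite v.toValuationSubring (gffB v F') := gffB_finite v
local instance gffi_flat : Module.Flat v.toValuationSubring (gffB v F') := gffB_flat v

theorem gffB_finite_primesOver :
    ((maximalIdeal v.toValuationSubring).primesOver (gffB v F')).Finite :=
  Algebra.QuasiFinite.finite_primesOver _

theorem gffB_algebraMap_injective :
    Function.Injective (algebraMap v.toValuationSubring (gffB v F')) := by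
  intro a b h
  have h1 := congrArg (algebraMap (gffB v F') F') h
  have h2 : algebraMap F F' (a : F) = algebraMap F F' (b : F) := h1
  exact Subtype.ext ((algebraMap F F').injective h2)

/-- the height one prime attached to a prime of `B` over `𝔪_v` -/
def gffHeightOne (q : (maximalIdeal v.toValuationSubring).primesOver (gffB v F')) :
    HeightOneSpectrum (gffB v F') :=
  ⟨q.1, q.2.1, by
    intro h
    have hlies := q.2.2
    have h1 : maximalIdeal v.toValuationSubring = q.1.under v.toValuationSubring :=
      Ideal.LiesOver.over
    apply IsDiscreteValuationRing.not_a_field v.toValuationSubring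
    rw [h1, h, eq_bot_iff]
    intro x hx
    rw [Ideal.mem_bot]
    have hx' : algebraMap v.toValuationSubring (gffB v F') x = 0 :=
      Ideal.mem_bot.mp (Ideal.mem_comap.mp hx)
    exact gffB_algebraMap_injective v (hx'.trans (map_zero _).symm)⟩

/-- the place of `F'` attached to a prime of `B` over `𝔪_v` -/
noncomputable def gffPlace (q : (maximalIdeal v.toValuationSubring).primesOver (gffB v F')) :
    Place K F' :=
  Place.ofHeightOneSpectrum (K := K) (gffHeightOne v q)

theorem gffPlace_injective :
    Function.Injective (gffPlace (K := K) (F' := F') v) := by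
  intro q₁ q₂ h
  have := ofHeightOneSpectrum_injective (K := K) h
  apply Subtype.ext
  exact congrArg HeightOneSpectrum.asIdeal this

theorem gffPlace_restrict (q : (maximalIdeal v.toValuationSubring).primesOver (gffB v F')) :
    (gffPlace v q).restrict F = v := by
  apply Place.ext
  symm
  refine ValuationSubring.eq_of_le_of_ne_top _ ?_ ((gffPlace v q).restrict F).ne_top'
  intro a ha
  rw [Place.restrict_toValuationSubring, ValuationSubring.mem_comap]
  exact algebraMap_mem_ofHeightOneSpectrum (K := K) (gffHeightOne v q)
    (algebraMap v.toValuationSubring (gffB v F') ⟨a, ha⟩)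

/-- positivity of `ord` at the place attached to a height one prime -/
theorem gff_ord_ofHeightOneSpectrum_pos_iff {R : Type*} [CommRing R] [IsDedekindDomain R]
    [Algebra R F'] [IsFractionRing R F'] [Algebra K R] [IsScalarTower K R F']
    (P : HeightOneSpectrum R) {f : F'} (hf : f ≠ 0) :
    0 < (Place.ofHeightOneSpectrum (K := K) P).ord f ↔ P.valuation F' f < 1 := by
  rw [ord_ofHeightOneSpectrum]
  have hval0 : P.valuation F' f ≠ 0 := (Valuation.ne_zero_iff _).2 hf
  rw [← log_lt_log hval0 one_ne_zero, log_one]
  omega

theorem gffPlace_surj (w : Place K F') (hw : w.restrict F = v) :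
    ∃ q : (maximalIdeal v.toValuationSubring).primesOver (gffB v F'), gffPlace v q = w := by
  subst hw
  have hA : ∀ a : (w.restrict F).toValuationSubring,
      algebraMap (w.restrict F).toValuationSubring F' a ∈ w.toValuationSubring := fun a => a.2
  have hB : ∀ b : gffB (w.restrict F) F',
      algebraMap (gffB (w.restrict F) F') F' b ∈ w.toValuationSubring := fun b =>
    mem_of_isIntegral_of_forall_mem w (A := (w.restrict F).toValuationSubring) hA b.2
  obtain ⟨P, hP⟩ := exists_eq_ofHeightOneSpectrum (K := K) w hB
  have hlies : P.asIdeal.LiesOver (maximalIdeal (w.restrict F).toValuationSubring) := by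
    constructor
    have hle : maximalIdeal (w.restrict F).toValuationSubring ≤
        P.asIdeal.under (w.restrict F).toValuationSubring := by
      intro x hx
      rw [Ideal.under_def, Ideal.mem_comap]
      rcases eq_or_ne x 0 with rfl | hx0
      · rw [map_zero]; exact zero_mem _
      rw [← HeightOneSpectrum.valuation_lt_one_iff_mem (K := F')]
      have hxF : (x : F) ≠ 0 := by simpa [ne_eq, ZeroMemClass.coe_eq_zero] using hx0
      have hxF' : algebraMap F F' (x : F) ≠ 0 := by simpa using hxF
      have h1 : 0 < (w.restrict F).ord (x : F) :=
        (PlaceOrd.ord_pos_iff_mem_maximalIdeal (w.restrict F) hx0).2 hx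
      have h2 : 0 < w.ord (algebraMap F F' (x : F)) := by
        rw [w.ord_restrict]
        exact mul_pos (by exact_mod_cast w.ramificationIndex_pos (F := F)) h1
      have key : ∀ y : F', w.ord y = (Place.ofHeightOneSpectrum (K := K) P).ord y :=
        fun y => congrArg (fun u => Place.ord u y) hP
      rw [key] at h2
      exact (gff_ord_ofHeightOneSpectrum_pos_iff P hxF').1 h2
    have hne : P.asIdeal.under (w.restrict F).toValuationSubring ≠ ⊤ :=
      (Ideal.IsPrime.under (w.restrict F).toValuationSubring P.asIdeal).ne_top
    exact ((maximalIdeal.isMaximal (w.restrict F).toValuationSubring).eq_of_le hne hle)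
  exact ⟨⟨P.asIdeal, P.isPrime, hlies⟩, hP.symm⟩

theorem gffPlace_mem_iff [HasPrincipalDivisors K F'] (w : Place K F') :
    w ∈ v.fiber F' ↔ ∃ q, gffPlace v q = w := by
  rw [Place.mem_fiber]
  constructor
  · exact gffPlace_surj v w
  · rintro ⟨q, rfl⟩
    exact gffPlace_restrict v q

theorem gffPlace_ramificationIndex
    (q : (maximalIdeal v.toValuationSubring).primesOver (gffB v F')) :
    (gffPlace v q).ramificationIndex F = q.1.ramificationIdx v.toValuationSubring := by
  have := q.2.1
  have := q.2.2
  obtain ⟨π, hπ⟩ := IsDiscreteValuationRing.exists_irreducible v.toValuationSubring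
  set πB : gffB v F' := algebraMap v.toValuationSubring (gffB v F') π with hπB
  have hπB0 : πB ≠ 0 := fun h =>
    hπ.ne_zero (gffB_algebraMap_injective v (h.trans (map_zero _).symm))
  have hmap : (maximalIdeal v.toValuationSubring).map
      (algebraMap v.toValuationSubring (gffB v F')) = Ideal.span {πB} := by
    rw [hπ.maximalIdeal_eq, Ideal.map_span, Set.image_singleton]
  have hmap0 : (maximalIdeal v.toValuationSubring).map
      (algebraMap v.toValuationSubring (gffB v F')) ≠ ⊥ := by
    rw [hmap, ne_eq, Ideal.span_singleton_eq_bot]; exact hπB0
  have h1 : (gffPlace v q).ord (algebraMap F F' (π : F))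
      = ((gffPlace v q).ramificationIndex F : ℤ) := by
    rw [(gffPlace v q).ord_restrict, gffPlace_restrict, v.ord_coe_irreducible hπ, mul_one]
  have h2 : (gffPlace v q).ord (algebraMap F F' (π : F))
      = (q.1.ramificationIdx v.toValuationSubring : ℤ) := by
    have h3 : (gffHeightOne v q).valuation F' (algebraMap F F' (π : F))
        = (gffHeightOne v q).intValuation πB := by
      rw [← HeightOneSpectrum.valuation_of_algebraMap (K := F')]
      rfl
    rw [gffPlace, ord_ofHeightOneSpectrum, h3,
      HeightOneSpectrum.intValuation_eq_exp_neg_multiplicity _ hπB0, log_exp, neg_neg,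
      Ideal.IsDedekindDomain.ramificationIdx_eq_multiplicity
        (maximalIdeal v.toValuationSubring) q.1 hmap0, hmap]
    rfl
  exact_mod_cast h1.symm.trans h2

end Dict

section SepGen

variable [CharZero K] [Module.Finite F F']

/-- the image of a separating generator of `F` is a separating generator of `F'` -/
theorem gffa_isSepGen_algebraMap {t : F} (ht : IsSepGen K t) :
    IsSepGen K (algebraMap F F' t) := by
  have htr : Transcendental K (algebraMap F F' t) :=
    (transcendental_algebraMap_iff (algebraMap F F').injective).2 ht.transcendental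
  refine IsSepGen.of_charZero htr ?_
  have hfinE : FiniteDimensional K⟮t⟯ F := ht.finite
  have hmem : ∀ x : K⟮t⟯, algebraMap F F' (x : F) ∈ K⟮algebraMap F F' t⟯ := by
    intro x
    have h1 : (K⟮t⟯).map (IsScalarTower.toAlgHom K F F') = K⟮algebraMap F F' t⟯ := by
      rw [IntermediateField.adjoin_map]; simp
    rw [← h1]; exact ⟨x, x.2, rfl⟩
  let g : K⟮t⟯ →+* K⟮algebraMap F F' t⟯ :=
    (algebraMap K⟮t⟯ F').codRestrict K⟮algebraMap F F' t⟯ hmem
  letI : Algebra K⟮t⟯ K⟮algebraMap F F' t⟯ := g.toAlgebra
  haveI : IsScalarTower K⟮t⟯ K⟮algebraMap F F' t⟯ F' :=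
    IsScalarTower.of_algebraMap_eq (fun x => rfl)
  have h2 : Module.Finite K⟮t⟯ F' := Module.Finite.trans F F'
  exact Module.Finite.of_restrictScalars_finite K⟮t⟯ K⟮algebraMap F F' t⟯ F'

theorem gffa_hasPrincipalDivisors {t : F} (ht : IsSepGen K t) : HasPrincipalDivisors K F' :=
  (gffa_isSepGen_algebraMap (F' := F') ht).hasPrincipalDivisors

variable [IsAlgClosed K]

theorem gffa_inertiaDeg_eq_one {t : F} (ht : IsSepGen K t) (w : Place K F') :
    w.inertiaDeg F = 1 := by
  have h := w.deg_restrict_mul_inertiaDeg (F := F)
  rw [ht.deg_eq_one, (gffa_isSepGen_algebraMap (F' := F') ht).deg_eq_one, one_mul] at h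
  exact h

end SepGen

section Sum

variable [CharZero K] [Module.Finite F F'] [IsAlgClosed K] (v : Place K F)

local instance gffj_tower : IsScalarTower K v.toValuationSubring F' := gff_isScalarTower_place v
local instance gffj_dedekind : IsDedekindDomain (gffB v F') := gffB_isDedekindDomain v
local instance gffj_fraction : IsFractionRing (gffB v F') F' := gffB_isFractionRing v
local instance gffj_finite : Module.Finite v.toValuationSubring (gffB v F') := gffB_finite v
local instance gffj_flat : Module.Flat v.toValuationSubring (gffB v F') := gffB_flat v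

theorem gffB_inertiaDeg_eq_one {t : F} (ht : IsSepGen K t)
    (q : (maximalIdeal v.toValuationSubring).primesOver (gffB v F')) :
    q.1.inertiaDeg v.toValuationSubring = 1 := by
  have := q.2.1
  have := q.2.2
  have hmax : q.1.IsMaximal := (gffHeightOne v q).isMaximal
  rw [Ideal.inertiaDeg_eq_of_isMaximal (maximalIdeal v.toValuationSubring) q.1]
  let := Ideal.Quotient.field (maximalIdeal v.toValuationSubring)
  let := Ideal.Quotient.field q.1
  haveI : Module.Free K (v.toValuationSubring ⧸ maximalIdeal v.toValuationSubring) :=
    Module.Free.of_divisionRing K _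
  have h1 := Module.finrank_mul_finrank K
    (v.toValuationSubring ⧸ maximalIdeal v.toValuationSubring) (gffB v F' ⧸ q.1)
  have h2 : Module.finrank K (gffB v F' ⧸ q.1) = 1 :=
    (deg_ofHeightOneSpectrum (K := K) (F := F') (gffHeightOne v q)).symm.trans
      ((gffa_isSepGen_algebraMap (F' := F') ht).deg_eq_one _)
  rw [h2] at h1
  exact Nat.eq_one_of_mul_eq_one_left h1

theorem gffa_sum_ramificationIndex [HasPrincipalDivisors K F'] {t : F} (ht : IsSepGen K t) :
    ∑ w ∈ v.fiber F', (w.ramificationIndex F : ℤ) * (w.inertiaDeg F : ℤ)
      = (Module.finrank F F' : ℤ) := by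
  classical
  have hfinp := gffB_finite_primesOver (F' := F') v
  let _ : Fintype ((maximalIdeal v.toValuationSubring).primesOver (gffB v F')) := hfinp.fintype
  have hfund := Ideal.sum_ramification_inertia_eq_finrank (maximalIdeal v.toValuationSubring)
    (gffB v F')
  have hfr : Module.finrank F F' = Module.finrank v.toValuationSubring (gffB v F') :=
    IsFractionRing.finrank_eq v.toValuationSubring F (gffB v F') F'
  rw [hfr, ← hfund]
  have himg : v.fiber F' = Finset.univ.image (gffPlace (K := K) (F' := F') v) := by
    ext w
    simp only [Finset.mem_image, Finset.mem_univ, true_and]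
    exact gffPlace_mem_iff v w
  rw [himg, Finset.sum_image (fun a _ b _ h => gffPlace_injective v h)]
  push_cast
  refine Finset.sum_congr rfl fun q _ => ?_
  rw [gffPlace_ramificationIndex, gffa_inertiaDeg_eq_one ht, gffB_inertiaDeg_eq_one v ht]

end Sum

end Fermat.Agent.G
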